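/-
S26 / block G (Theorem B, pure field theory, Mathlib only; architect helper187).
LEAF G-02.  Finite dimensionality of products and powers; `dim (P Q) ≤ dim P * dim Q`.
Hints: `Submodule.FG.mul`, `Submodule.FG.pow` (Mathlib/RingTheory/Finiteness/Subalgebra.lean),
`Module.Finite.iff_fg`; `Submodule.mulMap P Q : P ⊗[K] Q →ₗ[K] Ω`, `Submodule.mulMap_range`,
`LinearMap.finrank_range_le`, `Module.finrank_tensorProduct`.
-/
import Fermat.Agent.S26.G.Basic

set_option autoImplicit false

universe u

namespace Fermat.Agent.S26.G

open Module IntermediateField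

variable {K Ω : Type u} [Field K] [Field Ω] [Algebra K Ω]

theorem finiteDimensional_mul (P Q : Submodule K Ω) [FiniteDimensional K P]
    [FiniteDimensional K Q] : FiniteDimensional K ↥(P * Q) := by
  have hP : P.FG := Module.Finite.iff_fg.1 inferInstance
  have hQ : Q.FG := Module.Finite.iff_fg.1 inferInstance
  exact Module.Finite.iff_fg.2 (hP.mul hQ)

theorem finiteDimensional_pow (V : Submodule K Ω) [FiniteDimensional K V] (m : ℕ) :
    FiniteDimensional K ↥(V ^ m) := by
  have hV : V.FG := Module.Finite.iff_fg.1 inferInstance
  exact Module.Finite.iff_fg.2 (hV.pow m)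

theorem finrank_mul_le (P Q : Submodule K Ω) [FiniteDimensional K P] [FiniteDimensional K Q] :
    Module.finrank K ↥(P * Q) ≤ Module.finrank K P * Module.finrank K Q := by
  rw [← Module.finrank_tensorProduct, ← Submodule.mulMap_range]
  exact LinearMap.finrank_range_le _

end Fermat.Agent.S26.G
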