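/-
S26 / block G (Theorem B, pure field theory, Mathlib only; architect helper187).
LEAF G-01.  Scaling by a nonzero element does not change dimensions.
Hints: `Submodule.span_mul_span`/`Submodule.mul_induction_on`/`Submodule.mem_span_singleton`;
`LinearEquiv.finrank_map_eq` or `LinearMap.finrank_range_of_inj`, `Submodule.equivMapOfInjective`
(`LinearMap.mulLeft K c` is injective for `c ≠ 0`: `mul_right_injective₀`);
`mul_pow`, `Submodule.span_pow`, `Set.singleton_pow` for the last one.
-/
import Fermat.Agent.S26.G.Basic

set_option autoImplicit false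

universe u

namespace Fermat.Agent.S26.G

open Module IntermediateField

variable {K Ω : Type u} [Field K] [Field Ω] [Algebra K Ω]

theorem span_singleton_mul_eq_map (c : Ω) (V : Submodule K Ω) :
    Submodule.span K {c} * V = V.map (LinearMap.mulLeft K c) := by
  ext x
  rw [Submodule.mem_span_singleton_mul, Submodule.mem_map]
  rfl

theorem mem_span_singleton_mul {c x : Ω} {V : Submodule K Ω} :
    x ∈ Submodule.span K {c} * V ↔ ∃ v ∈ V, c * v = x :=
  Submodule.mem_span_singleton_mul

theorem finrank_span_singleton_mul {c : Ω} (hc : c ≠ 0) (V : Submodule K Ω) :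
    Module.finrank K ↥(Submodule.span K {c} * V) = Module.finrank K V := by
  rw [span_singleton_mul_eq_map]
  have hinj : Function.Injective (LinearMap.mulLeft K c) := mul_right_injective₀ hc
  exact (Submodule.equivMapOfInjective (LinearMap.mulLeft K c) hinj V).finrank_eq.symm

theorem span_singleton_mul_pow (c : Ω) (V : Submodule K Ω) (m : ℕ) :
    (Submodule.span K {c} * V) ^ m = Submodule.span K {c ^ m} * V ^ m := by
  rw [mul_pow, Submodule.span_pow, Set.singleton_pow]

theorem hilb_span_singleton_mul {c : Ω} (hc : c ≠ 0) (V : Submodule K Ω) (m : ℕ) :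
    hilb (Submodule.span K {c} * V) m = hilb V m := by
  rw [hilb_def, hilb_def, span_singleton_mul_pow]
  exact finrank_span_singleton_mul (pow_ne_zero m hc) (V ^ m)

end Fermat.Agent.S26.G
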