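/-
S26 / block G (Theorem B, pure field theory, Mathlib only; architect helper187).
LEAF G-03.  Functoriality of the Hilbert function.
Hints: `pow_mul`; `Submodule.map_pow` (`(M ^ n).map f.toLinearMap = M.map f.toLinearMap ^ n`) and
`LinearMap.finrank_range_of_inj` / `Submodule.equivMapOfInjective` (`σ` is injective: `σ.toRingHom.injective`);
for `hilb_le_add`: `span {v0 ^ a} * V ^ j ≤ V ^ (j + a)` (`Submodule.pow_mem_pow`, `Submodule.mul_le_mul`,
`pow_add`), `finrank_span_singleton_mul`, `Submodule.finrank_mono` (needs `finiteDimensional_pow`).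
-/
import Fermat.Agent.S26.G.Hilb.Scale
import Fermat.Agent.S26.G.Hilb.Fin

set_option autoImplicit false

universe u

namespace Fermat.Agent.S26.G

open Module IntermediateField

variable {K Ω : Type u} [Field K] [Field Ω] [Algebra K Ω]

theorem hilb_pow (V : Submodule K Ω) (e m : ℕ) : hilb (V ^ e) m = hilb V (e * m) := by
  rw [hilb_def, hilb_def, pow_mul]

theorem hilb_map {Ω' : Type u} [Field Ω'] [Algebra K Ω'] (σ : Ω →ₐ[K] Ω') (V : Submodule K Ω)
    (m : ℕ) : hilb (V.map σ.toLinearMap) m = hilb V m := by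
  rw [hilb_def, hilb_def, ← Submodule.map_pow]
  exact (LinearEquiv.finrank_eq
    (Submodule.equivMapOfInjective σ.toLinearMap σ.toRingHom.injective (V ^ m))).symm

theorem hilb_le_add (V : Submodule K Ω) [FiniteDimensional K V] {v0 : Ω} (hv0 : v0 ∈ V)
    (h0 : v0 ≠ 0) (j a : ℕ) : hilb V j ≤ hilb V (j + a) := by
  have hle : Submodule.span K {v0 ^ a} * V ^ j ≤ V ^ (j + a) := by
    rw [add_comm, pow_add]
    refine mul_le_mul' ?_ le_rfl
    rw [Submodule.span_singleton_le_iff_mem]
    exact Submodule.pow_mem_pow V hv0 a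
  have hfin : FiniteDimensional K ↥(V ^ (j + a)) := finiteDimensional_pow V (j + a)
  rw [hilb_def, hilb_def, ← finrank_span_singleton_mul (pow_ne_zero a h0) (V ^ j)]
  exact Submodule.finrank_mono hle

end Fermat.Agent.S26.G
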